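import Mathlib
import Fermat.Agent.S48.A.Neb.Vp

/-!
# S48: Hecke and diamond operators on cusp forms of level `Γ₁(N)` as bundled linear maps

* `diamond u : CuspForm (Gamma1 N) k →ₗ[ℂ] CuspForm (Gamma1 N) k` for `u : (ZMod N)ˣ`;
* `heckeT p hpN` for a prime `p ∤ N`, with its `q`-expansion;
* commutation relations.
-/

set_option autoImplicit false

noncomputable section

namespace Fermat.Agent.S48.G1

open Matrix.SpecialLinearGroup UpperHalfPlane CongruenceSubgroup ModularForm
open Fermat.Agent.S48.A.Neb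
open scoped MatrixGroups ModularForm OnePoint Manifold

variable {N : ℕ} [NeZero N] {k : ℤ}

/-- Every unit modulo `N` is the lower right entry of an element of `Γ₀(N)`. -/
theorem exists_G0 (u : (ZMod N)ˣ) : ∃ δ : SL(2, ℤ), G0 N δ (u : ZMod N) := by
  set d : ℕ := (u : ZMod N).val with hd
  have hdu : ((d : ℕ) : ZMod N) = u := ZMod.natCast_zmod_val _
  have hcop : Nat.Coprime d N := by
    rw [← ZMod.isUnit_iff_coprime, hdu]; exact u.isUnit
  have hcopZ : IsCoprime (d : ℤ) (N : ℤ) := Nat.isCoprime_iff_coprime.mpr hcop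
  obtain ⟨a, b, hab⟩ := hcopZ
  refine ⟨mkSL a (-b) N d (by linear_combination hab), ?_, ?_⟩
  · simp
  · simpa using hdu

/-- A chosen representative in `Γ₀(N)` of a unit modulo `N`. -/
def repOf (u : (ZMod N)ˣ) : SL(2, ℤ) := Classical.choose (exists_G0 u)

theorem repOf_spec (u : (ZMod N)ˣ) : G0 N (repOf u) (u : ZMod N) :=
  Classical.choose_spec (exists_G0 u)

theorem unit_mul_inv (u : (ZMod N)ˣ) : (u : ZMod N) * ((u⁻¹ : (ZMod N)ˣ) : ZMod N) = 1 := by
  rw [← Units.val_mul, mul_inv_cancel, Units.val_one]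

/-- The diamond operator `⟨u⟩` on cusp forms of level `Γ₁(N)`. -/
def diamond (u : (ZMod N)ˣ) : CuspForm (Gamma1 N) k →ₗ[ℂ] CuspForm (Gamma1 N) k where
  toFun f := ((cuspQ_cuspForm f).slash (mapGL_mem_ratGL (repOf u))).toCuspForm
    ((inv1_cuspForm f).slash (repOf_spec u) (unit_mul_inv u))
  map_add' f g := by
    apply CuspForm.ext
    intro τ
    simp [CuspQ.coe_toCuspForm, SlashAction.add_slash]
  map_smul' c f := by
    apply CuspForm.ext
    intro τ
    have h1 : (c • ⇑f) ∣[k] (mapGL ℝ (repOf u)) = c • ⇑f ∣[k] (repOf u) :=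
      ModularForm.SL_smul_slash k (repOf u) ⇑f c
    have h2 : ⇑f ∣[k] (repOf u) = ⇑f ∣[k] (mapGL ℝ (repOf u)) := rfl
    simp [CuspQ.coe_toCuspForm, h1, h2]

theorem coe_diamond (u : (ZMod N)ˣ) (f : CuspForm (Gamma1 N) k) :
    ⇑(diamond u f) = ⇑f ∣[k] mapGL ℝ (repOf u) := rfl

theorem coe_diamond_of_G0 (u : (ZMod N)ˣ) (f : CuspForm (Gamma1 N) k) {δ : SL(2, ℤ)}
    (hδ : G0 N δ (u : ZMod N)) : ⇑(diamond u f) = ⇑f ∣[k] mapGL ℝ δ := by
  rw [coe_diamond]
  exact (inv1_cuspForm f).slash_congr (repOf_spec u) hδ (unit_mul_inv u)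

theorem G0_one : G0 N (1 : SL(2, ℤ)) 1 := ⟨by simp, by simp⟩

theorem diamond_one : diamond (1 : (ZMod N)ˣ) = (LinearMap.id : CuspForm (Gamma1 N) k →ₗ[ℂ] _) := by
  apply LinearMap.ext
  intro f
  apply DFunLike.coe_injective
  rw [coe_diamond_of_G0 1 f (δ := 1) (by simpa using G0_one)]
  simp

theorem diamond_mul (u v : (ZMod N)ˣ) :
    (diamond (u * v) : CuspForm (Gamma1 N) k →ₗ[ℂ] _) = (diamond u).comp (diamond v) := by
  apply LinearMap.ext
  intro f
  apply DFunLike.coe_injective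
  have h := (repOf_spec v).mul (repOf_spec u)
  rw [LinearMap.comp_apply, coe_diamond u, coe_diamond v,
    coe_diamond_of_G0 (u * v) f (δ := repOf v * repOf u)
      (by rw [Units.val_mul, mul_comm]; exact h),
    map_mul, SlashAction.slash_mul]

theorem diamond_comm (u v : (ZMod N)ˣ) :
    ((diamond u).comp (diamond v) : CuspForm (Gamma1 N) k →ₗ[ℂ] _) =
      (diamond v).comp (diamond u) := by
  rw [← diamond_mul, ← diamond_mul, mul_comm]

section heckeT

variable (p : ℕ) [Fact p.Prime] (hpN : ¬ p ∣ N)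

/-- The unit `p mod N` for a prime `p ∤ N`. -/
def unitOfPrime : (ZMod N)ˣ :=
  ZMod.unitOfCoprime p ((Nat.Prime.coprime_iff_not_dvd Fact.out).mpr hpN)

@[simp] theorem coe_unitOfPrime : ((unitOfPrime p hpN : (ZMod N)ˣ) : ZMod N) = (p : ZMod N) :=
  ZMod.coe_unitOfCoprime p _

theorem repOf_unitOfPrime_spec : G0 N (repOf (unitOfPrime p hpN)) (p : ZMod N) := by
  have := repOf_spec (unitOfPrime p hpN)
  rwa [coe_unitOfPrime] at this

/-- The Hecke operator `T_p` on cusp forms of level `Γ₁(N)`, for a prime `p ∤ N`. -/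
def heckeT : CuspForm (Gamma1 N) k →ₗ[ℂ] CuspForm (Gamma1 N) k where
  toFun f := ((cuspQ_cuspForm f).heckeTw p (repOf (unitOfPrime p hpN))).toCuspForm
    (heckeTw_inv k hpN (repOf_unitOfPrime_spec p hpN) (inv1_cuspForm f))
  map_add' f g := by
    apply CuspForm.ext
    intro τ
    simp [CuspQ.coe_toCuspForm, heckeTw, SlashAction.add_slash, heckeU_add]
    ring
  map_smul' c f := by
    apply CuspForm.ext
    intro τ
    have h1 : (c • ⇑f) ∣[k] (mapGL ℝ (repOf (unitOfPrime p hpN))) =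
        c • ⇑f ∣[k] (repOf (unitOfPrime p hpN)) :=
      ModularForm.SL_smul_slash k (repOf (unitOfPrime p hpN)) ⇑f c
    have h2 : ⇑f ∣[k] (repOf (unitOfPrime p hpN)) =
        ⇑f ∣[k] (mapGL ℝ (repOf (unitOfPrime p hpN))) := rfl
    simp [CuspQ.coe_toCuspForm, heckeTw, heckeU_smul, h1, h2, ModularForm.smul_slash,
      σ_heckeDiagMatrix]
    ring

theorem coe_heckeT (f : CuspForm (Gamma1 N) k) :
    ⇑(heckeT p hpN f) = heckeTw k p (repOf (unitOfPrime p hpN)) ⇑f := rfl

theorem coe_heckeT_eq (f : CuspForm (Gamma1 N) k) :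
    ⇑(heckeT p hpN f) =
      ModularForm.heckeU k p ⇑f + ⇑(diamond (unitOfPrime p hpN) f) ∣[k] heckeDiagMatrix p := rfl

/-- The `q`-expansion of `T_p f`. -/
theorem qCoeff_heckeT (f : CuspForm (Gamma1 N) k) (n : ℕ) :
    ModularFormClass.qCoeff (heckeT p hpN f) n =
      ModularFormClass.qCoeff f (n * p) +
        if p ∣ n then (p : ℂ) ^ (k - 1) *
          ModularFormClass.qCoeff (diamond (unitOfPrime p hpN) f) (n / p) else 0 := by
  have hp0 : p ≠ 0 := (Fact.out : p.Prime).ne_zero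
  have hf := nice_cuspForm f
  have hd := nice_cuspForm (diamond (unitOfPrime p hpN) f)
  rw [coe_heckeT_eq, Nice.qCoeff_add (hf.heckeU k p) (hd.slash_diag k p),
    hf.qCoeff_heckeU k hp0, hd.qCoeff_slash_diag k hp0]

/-- `T_p` commutes with the diamond operators. -/
theorem heckeT_diamond_comm (u : (ZMod N)ˣ) :
    ((heckeT p hpN).comp (diamond u) : CuspForm (Gamma1 N) k →ₗ[ℂ] _) =
      (diamond u).comp (heckeT p hpN) := by
  apply LinearMap.ext
  intro f
  apply DFunLike.coe_injective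
  rw [LinearMap.comp_apply, LinearMap.comp_apply, coe_heckeT, coe_diamond, coe_diamond, coe_heckeT]
  exact (heckeTw_slash_G0 k hpN (repOf_unitOfPrime_spec p hpN) (inv1_cuspForm f)
    (repOf_spec u) (unit_mul_inv u)).symm

/-- The `q`-expansion of `T_p f` when `f` has nebentypus `χ` at `p`. -/
theorem qCoeff_heckeT_of_diamond (f : CuspForm (Gamma1 N) k) {c : ℂ}
    (hc : diamond (unitOfPrime p hpN) f = c • f) (n : ℕ) :
    ModularFormClass.qCoeff (heckeT p hpN f) n =
      ModularFormClass.qCoeff f (n * p) +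
        if p ∣ n then (p : ℂ) ^ (k - 1) * c * ModularFormClass.qCoeff f (n / p) else 0 := by
  rw [qCoeff_heckeT, hc]
  have : ModularFormClass.qCoeff (⇑(c • f)) (n / p) = c * ModularFormClass.qCoeff (⇑f) (n / p) := by
    have h : ⇑(c • f) = c • ⇑f := rfl
    rw [h, Nice.qCoeff_smul c (nice_cuspForm f)]
  rw [this]
  split_ifs <;> ring

end heckeT

theorem cuspForm_ext_qCoeff {f g : CuspForm (Gamma1 N) k}
    (h : ∀ n, ModularFormClass.qCoeff f n = ModularFormClass.qCoeff g n) : f = g :=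
  DFunLike.coe_injective ((nice_cuspForm f).eq_of_qCoeff (nice_cuspForm g) h)

section comm

variable (p q : ℕ) [Fact p.Prime] [Fact q.Prime] (hpN : ¬ p ∣ N) (hqN : ¬ q ∣ N)

theorem diamond_heckeT_apply (u : (ZMod N)ˣ) (f : CuspForm (Gamma1 N) k) :
    diamond u (heckeT p hpN f) = heckeT p hpN (diamond u f) := by
  have := LinearMap.congr_fun (heckeT_diamond_comm (k := k) p hpN u) f
  simpa using this.symm

theorem diamond_diamond_apply (u v : (ZMod N)ˣ) (f : CuspForm (Gamma1 N) k) :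
    diamond u (diamond v f) = diamond v (diamond u f) := by
  have := LinearMap.congr_fun (diamond_comm (k := k) u v) f
  simpa using this

/-- The Hecke operators at distinct primes commute. -/
theorem heckeT_comm (hpq : p ≠ q) (f : CuspForm (Gamma1 N) k) :
    heckeT p hpN (heckeT q hqN f) = heckeT q hqN (heckeT p hpN f) := by
  have hpp : p.Prime := Fact.out
  have hqp : q.Prime := Fact.out
  have hcop : Nat.Coprime p q := (Nat.coprime_primes hpp hqp).mpr hpq
  have hp0 : 0 < p := hpp.pos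
  have hq0 : 0 < q := hqp.pos
  apply cuspForm_ext_qCoeff
  intro n
  have L : ModularFormClass.qCoeff (heckeT p hpN (heckeT q hqN f)) n =
      (ModularFormClass.qCoeff f (n * p * q) + if q ∣ n * p then (q : ℂ) ^ (k - 1) *
          ModularFormClass.qCoeff (diamond (unitOfPrime q hqN) f) (n * p / q) else 0) +
        if p ∣ n then (p : ℂ) ^ (k - 1) *
          (ModularFormClass.qCoeff (diamond (unitOfPrime p hpN) f) (n / p * q) +
            if q ∣ n / p then (q : ℂ) ^ (k - 1) * ModularFormClass.qCoeff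
              (diamond (unitOfPrime q hqN) (diamond (unitOfPrime p hpN) f)) (n / p / q) else 0)
        else 0 := by
    rw [qCoeff_heckeT p hpN, qCoeff_heckeT q hqN f, diamond_heckeT_apply,
      qCoeff_heckeT q hqN (diamond (unitOfPrime p hpN) f)]
  have R : ModularFormClass.qCoeff (heckeT q hqN (heckeT p hpN f)) n =
      (ModularFormClass.qCoeff f (n * q * p) + if p ∣ n * q then (p : ℂ) ^ (k - 1) *
          ModularFormClass.qCoeff (diamond (unitOfPrime p hpN) f) (n * q / p) else 0) +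
        if q ∣ n then (q : ℂ) ^ (k - 1) *
          (ModularFormClass.qCoeff (diamond (unitOfPrime q hqN) f) (n / q * p) +
            if p ∣ n / q then (p : ℂ) ^ (k - 1) * ModularFormClass.qCoeff
              (diamond (unitOfPrime p hpN) (diamond (unitOfPrime q hqN) f)) (n / q / p) else 0)
        else 0 := by
    rw [qCoeff_heckeT q hqN, qCoeff_heckeT p hpN f, diamond_heckeT_apply,
      qCoeff_heckeT p hpN (diamond (unitOfPrime q hqN) f)]
  rw [L, R]
  have h1 : q ∣ n * p ↔ q ∣ n := hcop.symm.dvd_mul_right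
  have h2 : p ∣ n * q ↔ p ∣ n := hcop.dvd_mul_right
  have h3 : n * p * q = n * q * p := by ring
  by_cases hpn : p ∣ n <;> by_cases hqn : q ∣ n
  · -- both divide
    obtain ⟨m, rfl⟩ := hpn
    have hqm : q ∣ m := (hcop.symm.dvd_mul_left).mp hqn
    obtain ⟨r, rfl⟩ := hqm
    have e1 : p * (q * r) * p / q = p * r * p := by
      rw [show p * (q * r) * p = q * (p * r * p) by ring, Nat.mul_div_cancel_left _ hq0]
    have e2 : p * (q * r) * q / p = q * r * q := by
      rw [show p * (q * r) * q = p * (q * r * q) by ring, Nat.mul_div_cancel_left _ hp0]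
    have e3 : p * (q * r) / p = q * r := Nat.mul_div_cancel_left _ hp0
    have e4 : p * (q * r) / q = p * r := by
      rw [show p * (q * r) = q * (p * r) by ring, Nat.mul_div_cancel_left _ hq0]
    have e5 : q * r / q = r := Nat.mul_div_cancel_left _ hq0
    have e6 : p * r / p = r := Nat.mul_div_cancel_left _ hp0
    have d1 : q ∣ p * (q * r) * p := ⟨p * r * p, by ring⟩
    have d2 : p ∣ p * (q * r) * q := ⟨q * r * q, by ring⟩
    have d3 : p ∣ p * (q * r) := ⟨q * r, rfl⟩
    have d4 : q ∣ p * (q * r) := ⟨p * r, by ring⟩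
    have d5 : q ∣ q * r := ⟨r, rfl⟩
    have d6 : p ∣ p * r := ⟨r, rfl⟩
    rw [if_pos d1, if_pos d2, if_pos d3, if_pos d4, e1, e2, e3, e4, if_pos d5, if_pos d6, e5, e6,
      diamond_diamond_apply (unitOfPrime p hpN) (unitOfPrime q hqN) f, h3,
      show q * r * q = q * r * q from rfl, show p * r * p = p * r * p from rfl]
    ring
  · -- only `p` divides
    obtain ⟨m, rfl⟩ := hpn
    have hqm : ¬ q ∣ m := fun h ↦ hqn (Dvd.dvd.mul_left h p)
    have e2 : p * m * q / p = m * q := by
      rw [show p * m * q = p * (m * q) by ring, Nat.mul_div_cancel_left _ hp0]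
    have e3 : p * m / p = m := Nat.mul_div_cancel_left _ hp0
    have d1 : ¬ q ∣ p * m * p := fun h ↦ hqn (h1.mp h)
    have d2 : p ∣ p * m * q := ⟨m * q, by ring⟩
    have d3 : p ∣ p * m := ⟨m, rfl⟩
    rw [if_neg d1, if_pos d2, if_pos d3, if_neg hqn, e2, e3, if_neg hqm, h3]
    ring
  · -- only `q` divides
    obtain ⟨m, rfl⟩ := hqn
    have hpm : ¬ p ∣ m := fun h ↦ hpn (Dvd.dvd.mul_left h q)
    have e1 : q * m * p / q = m * p := by
      rw [show q * m * p = q * (m * p) by ring, Nat.mul_div_cancel_left _ hq0]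
    have e3 : q * m / q = m := Nat.mul_div_cancel_left _ hq0
    have d1 : q ∣ q * m * p := ⟨m * p, by ring⟩
    have d2 : ¬ p ∣ q * m * q := fun h ↦ hpn (h2.mp h)
    have d3 : q ∣ q * m := ⟨m, rfl⟩
    rw [if_pos d1, if_neg d2, if_neg hpn, if_pos d3, e1, e3, if_neg hpm, h3]
    ring
  · -- neither divides
    have d1 : ¬ q ∣ n * p := fun h ↦ hqn (h1.mp h)
    have d2 : ¬ p ∣ n * q := fun h ↦ hpn (h2.mp h)
    rw [if_neg d1, if_neg d2, if_neg hpn, if_neg hqn, h3]

end comm

end Fermat.Agent.S48.G1
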