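import Mathlib
import Fermat.Agent.S48.G1.HeckeOp

/-!
# S48: Hecke and diamond operators on modular forms of level `Γ₁(N)` as bundled linear maps

The twin of `HeckeOp.lean` for `ModularForm (Gamma1 N) k` (bounded at the cusps instead of zero at
the cusps), the compatibility of the two, change of level, and the product
`CuspForm × ModularForm → CuspForm`.
-/

set_option autoImplicit false

noncomputable section

namespace Fermat.Agent.S48.G1

open Matrix.SpecialLinearGroup UpperHalfPlane CongruenceSubgroup ModularForm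
open Fermat.Agent.S48.A.Neb
open scoped MatrixGroups ModularForm OnePoint Manifold

variable {N : ℕ} [NeZero N] {k : ℤ}

/-! ### Bounded at all rational cusps -/

/-- Holomorphic and bounded at `i∞` after every rational slash. -/
def MdfQ (k : ℤ) (F : ℍ → ℂ) : Prop :=
  MDiff F ∧ ∀ A ∈ ratGL, IsBoundedAtImInfty (F ∣[k] A)

theorem mdfQ_modularForm (f : ModularForm (Gamma1 N) k) : MdfQ k ⇑f := by
  refine ⟨ModularFormClass.holo f, fun A hA ↦ ?_⟩
  have hc : IsCusp (A • (∞ : OnePoint ℝ)) (Subgroup.map (mapGL ℝ) (Gamma1 N)) :=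
    (Subgroup.IsArithmetic.isCusp_iff_isCusp_SL2Z _).mpr (isCusp_smul_infty_of_mem_ratGL hA)
  exact ModularFormClass.bdd_at_cusps f hc A rfl

theorem cuspQ_mdfQ {F : ℍ → ℂ} (hF : CuspQ k F) : MdfQ k F :=
  ⟨hF.1, fun A hA ↦ (hF.2 A hA).boundedAtFilter⟩

theorem MdfQ.slash {F : ℍ → ℂ} (hF : MdfQ k F) {A : GL (Fin 2) ℝ} (hA : A ∈ ratGL) :
    MdfQ k (F ∣[k] A) := by
  refine ⟨hF.1.slash k A, fun B hB ↦ ?_⟩
  rw [← SlashAction.slash_mul]
  exact hF.2 _ (ratGL.mul_mem hA hB)

theorem MdfQ.smul {F : ℍ → ℂ} (c : ℂ) (hF : MdfQ k F) : MdfQ k (c • F) := by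
  refine ⟨hF.1.const_smul c, fun A hA ↦ ?_⟩
  rw [ModularForm.smul_slash]
  exact (hF.2 A hA).smul _

theorem MdfQ.zero : MdfQ k (0 : ℍ → ℂ) := by
  refine ⟨mdifferentiable_const, fun A _ ↦ ?_⟩
  rw [SlashAction.zero_slash]
  exact Filter.const_boundedAtFilter _ 0

theorem MdfQ.add {F G : ℍ → ℂ} (hF : MdfQ k F) (hG : MdfQ k G) : MdfQ k (F + G) := by
  refine ⟨hF.1.add hG.1, fun A hA ↦ ?_⟩
  rw [SlashAction.add_slash]
  exact (hF.2 A hA).add (hG.2 A hA)

theorem MdfQ.sub {F G : ℍ → ℂ} (hF : MdfQ k F) (hG : MdfQ k G) : MdfQ k (F - G) := by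
  refine ⟨hF.1.sub hG.1, fun A hA ↦ ?_⟩
  rw [sub_eq_add_neg, SlashAction.add_slash, SlashAction.neg_slash]
  exact (hF.2 A hA).add (hG.2 A hA).neg

theorem MdfQ.sum {ι : Type*} (s : Finset ι) {F : ι → ℍ → ℂ} (hF : ∀ i ∈ s, MdfQ k (F i)) :
    MdfQ k (∑ i ∈ s, F i) := by
  classical
  induction s using Finset.induction_on with
  | empty => simpa using (MdfQ.zero (k := k))
  | insert a s ha ih =>
    rw [Finset.sum_insert ha]
    exact (hF a (Finset.mem_insert_self a s)).add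
      (ih fun i hi ↦ hF i (Finset.mem_insert_of_mem hi))

theorem MdfQ.heckeU {F : ℍ → ℂ} (hF : MdfQ k F) (p : ℕ) :
    MdfQ k (ModularForm.heckeU k p F) := by
  rw [heckeU_def]
  exact MdfQ.sum _ fun j _ ↦ hF.slash (heckeMatrix_mem_ratGL p j)

theorem MdfQ.heckeTw {F : ℍ → ℂ} (hF : MdfQ k F) (p : ℕ) (δ : SL(2, ℤ)) :
    MdfQ k (heckeTw k p δ F) :=
  (hF.heckeU p).add ((hF.slash (mapGL_mem_ratGL δ)).slash (heckeDiagMatrix_mem_ratGL p))

/-- Package a `Γ₁(N)`-invariant function, bounded at the rational cusps, as a modular form. -/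
def MdfQ.toModularForm {F : ℍ → ℂ} (hF : MdfQ k F) (hinv : Inv1 N k F) :
    ModularForm (Gamma1 N) k where
  toFun := F
  slash_action_eq' := by
    rintro γ ⟨g, hg, rfl⟩
    exact hinv g hg
  holo' := hF.1
  bdd_at_cusps' := by
    intro c hc
    rw [Subgroup.IsArithmetic.isCusp_iff_isCusp_SL2Z] at hc
    obtain ⟨γ, rfl⟩ := isCusp_SL2Z_iff'.mp hc
    rw [OnePoint.IsBoundedAt.smul_iff, OnePoint.isBoundedAt_infty_iff]
    exact hF.2 _ (mapGL_mem_ratGL γ)

@[simp] theorem MdfQ.coe_toModularForm {F : ℍ → ℂ} (hF : MdfQ k F) (hinv : Inv1 N k F) :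
    ⇑(hF.toModularForm hinv) = F := rfl

theorem nice_modularForm (f : ModularForm (Gamma1 N) k) : Nice ⇑f where
  per := SlashInvariantFormClass.periodic_comp_ofComplex f (one_mem_strictPeriods_Gamma1 N)
  hol := ModularFormClass.holo f
  bdd := ModularFormClass.bdd_at_infty f

omit [NeZero N] in
theorem inv1_modularForm (f : ModularForm (Gamma1 N) k) : Inv1 N k ⇑f := fun _ hg ↦
  SlashInvariantFormClass.slash_action_eq f _ (Subgroup.mem_map_of_mem _ hg)

/-! ### The operators -/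

/-- The diamondM operator `⟨u⟩` on cusp forms of level `Γ₁(N)`. -/
def diamondM (u : (ZMod N)ˣ) : ModularForm (Gamma1 N) k →ₗ[ℂ] ModularForm (Gamma1 N) k where
  toFun f := ((mdfQ_modularForm f).slash (mapGL_mem_ratGL (repOf u))).toModularForm
    ((inv1_modularForm f).slash (repOf_spec u) (unit_mul_inv u))
  map_add' f g := by
    apply ModularForm.ext
    intro τ
    simp [MdfQ.coe_toModularForm, SlashAction.add_slash]
  map_smul' c f := by
    apply ModularForm.ext
    intro τ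
    have h1 : (c • ⇑f) ∣[k] (mapGL ℝ (repOf u)) = c • ⇑f ∣[k] (repOf u) :=
      ModularForm.SL_smul_slash k (repOf u) ⇑f c
    have h2 : ⇑f ∣[k] (repOf u) = ⇑f ∣[k] (mapGL ℝ (repOf u)) := rfl
    simp [MdfQ.coe_toModularForm, h1, h2]

theorem coe_diamondM (u : (ZMod N)ˣ) (f : ModularForm (Gamma1 N) k) :
    ⇑(diamondM u f) = ⇑f ∣[k] mapGL ℝ (repOf u) := rfl

theorem coe_diamondM_of_G0 (u : (ZMod N)ˣ) (f : ModularForm (Gamma1 N) k) {δ : SL(2, ℤ)}
    (hδ : G0 N δ (u : ZMod N)) : ⇑(diamondM u f) = ⇑f ∣[k] mapGL ℝ δ := by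
  rw [coe_diamondM]
  exact (inv1_modularForm f).slash_congr (repOf_spec u) hδ (unit_mul_inv u)

theorem diamondM_one : diamondM (1 : (ZMod N)ˣ) = (LinearMap.id : ModularForm (Gamma1 N) k →ₗ[ℂ] _) := by
  apply LinearMap.ext
  intro f
  apply DFunLike.coe_injective
  rw [coe_diamondM_of_G0 1 f (δ := 1) (by simpa using G0_one)]
  simp

theorem diamondM_mul (u v : (ZMod N)ˣ) :
    (diamondM (u * v) : ModularForm (Gamma1 N) k →ₗ[ℂ] _) = (diamondM u).comp (diamondM v) := by
  apply LinearMap.ext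
  intro f
  apply DFunLike.coe_injective
  have h := (repOf_spec v).mul (repOf_spec u)
  rw [LinearMap.comp_apply, coe_diamondM u, coe_diamondM v,
    coe_diamondM_of_G0 (u * v) f (δ := repOf v * repOf u)
      (by rw [Units.val_mul, mul_comm]; exact h),
    map_mul, SlashAction.slash_mul]

theorem diamondM_comm (u v : (ZMod N)ˣ) :
    ((diamondM u).comp (diamondM v) : ModularForm (Gamma1 N) k →ₗ[ℂ] _) =
      (diamondM v).comp (diamondM u) := by
  rw [← diamondM_mul, ← diamondM_mul, mul_comm]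

section heckeTM

variable (p : ℕ) [Fact p.Prime] (hpN : ¬ p ∣ N)

/-- The Hecke operator `T_p` on cusp forms of level `Γ₁(N)`, for a prime `p ∤ N`. -/
def heckeTM : ModularForm (Gamma1 N) k →ₗ[ℂ] ModularForm (Gamma1 N) k where
  toFun f := ((mdfQ_modularForm f).heckeTw p (repOf (unitOfPrime p hpN))).toModularForm
    (heckeTw_inv k hpN (repOf_unitOfPrime_spec p hpN) (inv1_modularForm f))
  map_add' f g := by
    apply ModularForm.ext
    intro τ
    simp [MdfQ.coe_toModularForm, heckeTw, SlashAction.add_slash, heckeU_add]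
    ring
  map_smul' c f := by
    apply ModularForm.ext
    intro τ
    have h1 : (c • ⇑f) ∣[k] (mapGL ℝ (repOf (unitOfPrime p hpN))) =
        c • ⇑f ∣[k] (repOf (unitOfPrime p hpN)) :=
      ModularForm.SL_smul_slash k (repOf (unitOfPrime p hpN)) ⇑f c
    have h2 : ⇑f ∣[k] (repOf (unitOfPrime p hpN)) =
        ⇑f ∣[k] (mapGL ℝ (repOf (unitOfPrime p hpN))) := rfl
    simp [MdfQ.coe_toModularForm, heckeTw, heckeU_smul, h1, h2, ModularForm.smul_slash,
      σ_heckeDiagMatrix]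
    ring

theorem coe_heckeTM (f : ModularForm (Gamma1 N) k) :
    ⇑(heckeTM p hpN f) = heckeTw k p (repOf (unitOfPrime p hpN)) ⇑f := rfl

theorem coe_heckeTM_eq (f : ModularForm (Gamma1 N) k) :
    ⇑(heckeTM p hpN f) =
      ModularForm.heckeU k p ⇑f + ⇑(diamondM (unitOfPrime p hpN) f) ∣[k] heckeDiagMatrix p := rfl

/-- The `q`-expansion of `T_p f`. -/
theorem qCoeff_heckeTM (f : ModularForm (Gamma1 N) k) (n : ℕ) :
    ModularFormClass.qCoeff (heckeTM p hpN f) n =
      ModularFormClass.qCoeff f (n * p) +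
        if p ∣ n then (p : ℂ) ^ (k - 1) *
          ModularFormClass.qCoeff (diamondM (unitOfPrime p hpN) f) (n / p) else 0 := by
  have hp0 : p ≠ 0 := (Fact.out : p.Prime).ne_zero
  have hf := nice_modularForm f
  have hd := nice_modularForm (diamondM (unitOfPrime p hpN) f)
  rw [coe_heckeTM_eq, Nice.qCoeff_add (hf.heckeU k p) (hd.slash_diag k p),
    hf.qCoeff_heckeU k hp0, hd.qCoeff_slash_diag k hp0]

/-- `T_p` commutes with the diamondM operators. -/
theorem heckeTM_diamondM_comm (u : (ZMod N)ˣ) :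
    ((heckeTM p hpN).comp (diamondM u) : ModularForm (Gamma1 N) k →ₗ[ℂ] _) =
      (diamondM u).comp (heckeTM p hpN) := by
  apply LinearMap.ext
  intro f
  apply DFunLike.coe_injective
  rw [LinearMap.comp_apply, LinearMap.comp_apply, coe_heckeTM, coe_diamondM, coe_diamondM, coe_heckeTM]
  exact (heckeTw_slash_G0 k hpN (repOf_unitOfPrime_spec p hpN) (inv1_modularForm f)
    (repOf_spec u) (unit_mul_inv u)).symm

/-- The `q`-expansion of `T_p f` when `f` has nebentypus `χ` at `p`. -/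
theorem qCoeff_heckeTM_of_diamondM (f : ModularForm (Gamma1 N) k) {c : ℂ}
    (hc : diamondM (unitOfPrime p hpN) f = c • f) (n : ℕ) :
    ModularFormClass.qCoeff (heckeTM p hpN f) n =
      ModularFormClass.qCoeff f (n * p) +
        if p ∣ n then (p : ℂ) ^ (k - 1) * c * ModularFormClass.qCoeff f (n / p) else 0 := by
  rw [qCoeff_heckeTM, hc]
  have : ModularFormClass.qCoeff (⇑(c • f)) (n / p) = c * ModularFormClass.qCoeff (⇑f) (n / p) := by
    have h : ⇑(c • f) = c • ⇑f := rfl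
    rw [h, Nice.qCoeff_smul c (nice_modularForm f)]
  rw [this]
  split_ifs <;> ring

end heckeTM

theorem modularForm_ext_qCoeff {f g : ModularForm (Gamma1 N) k}
    (h : ∀ n, ModularFormClass.qCoeff f n = ModularFormClass.qCoeff g n) : f = g :=
  DFunLike.coe_injective ((nice_modularForm f).eq_of_qCoeff (nice_modularForm g) h)

section comm

variable (p q : ℕ) [Fact p.Prime] [Fact q.Prime] (hpN : ¬ p ∣ N) (hqN : ¬ q ∣ N)

theorem diamondM_heckeTM_apply (u : (ZMod N)ˣ) (f : ModularForm (Gamma1 N) k) :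
    diamondM u (heckeTM p hpN f) = heckeTM p hpN (diamondM u f) := by
  have := LinearMap.congr_fun (heckeTM_diamondM_comm (k := k) p hpN u) f
  simpa using this.symm

theorem diamondM_diamondM_apply (u v : (ZMod N)ˣ) (f : ModularForm (Gamma1 N) k) :
    diamondM u (diamondM v f) = diamondM v (diamondM u f) := by
  have := LinearMap.congr_fun (diamondM_comm (k := k) u v) f
  simpa using this

/-- The Hecke operators at distinct primes commute. -/
theorem heckeTM_comm (hpq : p ≠ q) (f : ModularForm (Gamma1 N) k) :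
    heckeTM p hpN (heckeTM q hqN f) = heckeTM q hqN (heckeTM p hpN f) := by
  have hpp : p.Prime := Fact.out
  have hqp : q.Prime := Fact.out
  have hcop : Nat.Coprime p q := (Nat.coprime_primes hpp hqp).mpr hpq
  have hp0 : 0 < p := hpp.pos
  have hq0 : 0 < q := hqp.pos
  apply modularForm_ext_qCoeff
  intro n
  have L : ModularFormClass.qCoeff (heckeTM p hpN (heckeTM q hqN f)) n =
      (ModularFormClass.qCoeff f (n * p * q) + if q ∣ n * p then (q : ℂ) ^ (k - 1) *
          ModularFormClass.qCoeff (diamondM (unitOfPrime q hqN) f) (n * p / q) else 0) +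
        if p ∣ n then (p : ℂ) ^ (k - 1) *
          (ModularFormClass.qCoeff (diamondM (unitOfPrime p hpN) f) (n / p * q) +
            if q ∣ n / p then (q : ℂ) ^ (k - 1) * ModularFormClass.qCoeff
              (diamondM (unitOfPrime q hqN) (diamondM (unitOfPrime p hpN) f)) (n / p / q) else 0)
        else 0 := by
    rw [qCoeff_heckeTM p hpN, qCoeff_heckeTM q hqN f, diamondM_heckeTM_apply,
      qCoeff_heckeTM q hqN (diamondM (unitOfPrime p hpN) f)]
  have R : ModularFormClass.qCoeff (heckeTM q hqN (heckeTM p hpN f)) n =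
      (ModularFormClass.qCoeff f (n * q * p) + if p ∣ n * q then (p : ℂ) ^ (k - 1) *
          ModularFormClass.qCoeff (diamondM (unitOfPrime p hpN) f) (n * q / p) else 0) +
        if q ∣ n then (q : ℂ) ^ (k - 1) *
          (ModularFormClass.qCoeff (diamondM (unitOfPrime q hqN) f) (n / q * p) +
            if p ∣ n / q then (p : ℂ) ^ (k - 1) * ModularFormClass.qCoeff
              (diamondM (unitOfPrime p hpN) (diamondM (unitOfPrime q hqN) f)) (n / q / p) else 0)
        else 0 := by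
    rw [qCoeff_heckeTM q hqN, qCoeff_heckeTM p hpN f, diamondM_heckeTM_apply,
      qCoeff_heckeTM p hpN (diamondM (unitOfPrime q hqN) f)]
  rw [L, R]
  have h1 : q ∣ n * p ↔ q ∣ n := hcop.symm.dvd_mul_right
  have h2 : p ∣ n * q ↔ p ∣ n := hcop.dvd_mul_right
  have h3 : n * p * q = n * q * p := by ring
  by_cases hpn : p ∣ n <;> by_cases hqn : q ∣ n
  · -- both divide
    obtain ⟨m, rfl⟩ := hpn
    have hqm : q ∣ m := (hcop.symm.dvd_mul_left).mp hqn
    obtain ⟨r, rfl⟩ := hqm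
    have e1 : p * (q * r) * p / q = p * r * p := by
      rw [show p * (q * r) * p = q * (p * r * p) by ring, Nat.mul_div_cancel_left _ hq0]
    have e2 : p * (q * r) * q / p = q * r * q := by
      rw [show p * (q * r) * q = p * (q * r * q) by ring, Nat.mul_div_cancel_left _ hp0]
    have e3 : p * (q * r) / p = q * r := Nat.mul_div_cancel_left _ hp0
    have e4 : p * (q * r) / q = p * r := by
      rw [show p * (q * r) = q * (p * r) by ring, Nat.mul_div_cancel_left _ hq0]
    have e5 : q * r / q = r := Nat.mul_div_cancel_left _ hq0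
    have e6 : p * r / p = r := Nat.mul_div_cancel_left _ hp0
    have d1 : q ∣ p * (q * r) * p := ⟨p * r * p, by ring⟩
    have d2 : p ∣ p * (q * r) * q := ⟨q * r * q, by ring⟩
    have d3 : p ∣ p * (q * r) := ⟨q * r, rfl⟩
    have d4 : q ∣ p * (q * r) := ⟨p * r, by ring⟩
    have d5 : q ∣ q * r := ⟨r, rfl⟩
    have d6 : p ∣ p * r := ⟨r, rfl⟩
    rw [if_pos d1, if_pos d2, if_pos d3, if_pos d4, e1, e2, e3, e4, if_pos d5, if_pos d6, e5, e6,
      diamondM_diamondM_apply (unitOfPrime p hpN) (unitOfPrime q hqN) f, h3,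
      show q * r * q = q * r * q from rfl, show p * r * p = p * r * p from rfl]
    ring
  · -- only `p` divides
    obtain ⟨m, rfl⟩ := hpn
    have hqm : ¬ q ∣ m := fun h ↦ hqn (Dvd.dvd.mul_left h p)
    have e2 : p * m * q / p = m * q := by
      rw [show p * m * q = p * (m * q) by ring, Nat.mul_div_cancel_left _ hp0]
    have e3 : p * m / p = m := Nat.mul_div_cancel_left _ hp0
    have d1 : ¬ q ∣ p * m * p := fun h ↦ hqn (h1.mp h)
    have d2 : p ∣ p * m * q := ⟨m * q, by ring⟩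
    have d3 : p ∣ p * m := ⟨m, rfl⟩
    rw [if_neg d1, if_pos d2, if_pos d3, if_neg hqn, e2, e3, if_neg hqm, h3]
    ring
  · -- only `q` divides
    obtain ⟨m, rfl⟩ := hqn
    have hpm : ¬ p ∣ m := fun h ↦ hpn (Dvd.dvd.mul_left h q)
    have e1 : q * m * p / q = m * p := by
      rw [show q * m * p = q * (m * p) by ring, Nat.mul_div_cancel_left _ hq0]
    have e3 : q * m / q = m := Nat.mul_div_cancel_left _ hq0
    have d1 : q ∣ q * m * p := ⟨m * p, by ring⟩
    have d2 : ¬ p ∣ q * m * q := fun h ↦ hpn (h2.mp h)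
    have d3 : q ∣ q * m := ⟨m, rfl⟩
    rw [if_pos d1, if_neg d2, if_neg hpn, if_pos d3, e1, e3, if_neg hpm, h3]
    ring
  · -- neither divides
    have d1 : ¬ q ∣ n * p := fun h ↦ hqn (h1.mp h)
    have d2 : ¬ p ∣ n * q := fun h ↦ hpn (h2.mp h)
    rw [if_neg d1, if_neg d2, if_neg hpn, if_neg hqn, h3]

end comm
/-! ### Compatibility of the cusp form and modular form versions -/

theorem coe_diamond_eq_coe_diamondM (u : (ZMod N)ˣ) {f : CuspForm (Gamma1 N) k}
    {g : ModularForm (Gamma1 N) k} (h : ⇑f = ⇑g) : ⇑(diamond u f) = ⇑(diamondM u g) := by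
  rw [coe_diamond, coe_diamondM, h]

theorem coe_heckeT_eq_coe_heckeTM (p : ℕ) [Fact p.Prime] (hpN : ¬ p ∣ N)
    {f : CuspForm (Gamma1 N) k} {g : ModularForm (Gamma1 N) k} (h : ⇑f = ⇑g) :
    ⇑(heckeT p hpN f) = ⇑(heckeTM p hpN g) := by
  rw [coe_heckeT, coe_heckeTM, h]

/-- A cusp form as a modular form. -/
def cuspToMod : CuspForm (Gamma1 N) k →ₗ[ℂ] ModularForm (Gamma1 N) k where
  toFun f := MdfQ.toModularForm (cuspQ_mdfQ (cuspQ_cuspForm f)) (inv1_cuspForm f)
  map_add' _ _ := rfl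
  map_smul' _ _ := rfl

@[simp] theorem coe_cuspToMod (f : CuspForm (Gamma1 N) k) : ⇑(cuspToMod f) = ⇑f := rfl

theorem cuspToMod_injective :
    Function.Injective (cuspToMod : CuspForm (Gamma1 N) k →ₗ[ℂ] ModularForm (Gamma1 N) k) :=
  fun _ _ h ↦ DFunLike.coe_injective (congrArg (fun g : ModularForm (Gamma1 N) k ↦ ⇑g) h)

theorem cuspToMod_diamond (u : (ZMod N)ˣ) (f : CuspForm (Gamma1 N) k) :
    cuspToMod (diamond u f) = diamondM u (cuspToMod f) :=
  DFunLike.coe_injective (coe_diamond_eq_coe_diamondM u rfl)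

theorem cuspToMod_heckeT (p : ℕ) [Fact p.Prime] (hpN : ¬ p ∣ N) (f : CuspForm (Gamma1 N) k) :
    cuspToMod (heckeT p hpN f) = heckeTM p hpN (cuspToMod f) :=
  DFunLike.coe_injective (coe_heckeT_eq_coe_heckeTM p hpN rfl)

/-! ### Change of level -/

section level

variable {N' : ℕ} [NeZero N'] (h : N ∣ N')
include h

omit [NeZero N] [NeZero N'] in
theorem G0_of_dvd {δ : SL(2, ℤ)} {u : ZMod N'} (hδ : G0 N' δ u) :
    G0 N δ (ZMod.castHom h (ZMod N) u) := by
  obtain ⟨h0, h1⟩ := hδ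
  constructor
  · rw [← map_intCast (ZMod.castHom h (ZMod N)), h0, map_zero]
  · rw [← map_intCast (ZMod.castHom h (ZMod N)), h1]

omit [NeZero N] [NeZero N'] in
theorem mem_Gamma1_of_dvd {g : SL(2, ℤ)} (hg : g ∈ Gamma1 N') : g ∈ Gamma1 N := by
  rw [← G0.one_iff_mem_Gamma1] at hg ⊢
  have := G0_of_dvd h hg
  rwa [map_one] at this

omit [NeZero N] [NeZero N'] in
theorem inv1_of_dvd {F : ℍ → ℂ} (hF : Inv1 N k F) : Inv1 N' k F :=
  fun g hg ↦ hF g (mem_Gamma1_of_dvd h hg)

/-- A cusp form of level `Γ₁(N)` as a cusp form of level `Γ₁(N')`, `N ∣ N'`. -/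
def raiseC : CuspForm (Gamma1 N) k →ₗ[ℂ] CuspForm (Gamma1 N') k where
  toFun f := (cuspQ_cuspForm f).toCuspForm (inv1_of_dvd h (inv1_cuspForm f))
  map_add' _ _ := rfl
  map_smul' _ _ := rfl

/-- A modular form of level `Γ₁(N)` as a modular form of level `Γ₁(N')`, `N ∣ N'`. -/
def raiseM : ModularForm (Gamma1 N) k →ₗ[ℂ] ModularForm (Gamma1 N') k where
  toFun f := (mdfQ_modularForm f).toModularForm (inv1_of_dvd h (inv1_modularForm f))
  map_add' _ _ := rfl
  map_smul' _ _ := rfl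

@[simp] theorem coe_raiseC (f : CuspForm (Gamma1 N) k) : ⇑(raiseC h f) = ⇑f := rfl

@[simp] theorem coe_raiseM (f : ModularForm (Gamma1 N) k) : ⇑(raiseM h f) = ⇑f := rfl

theorem qCoeff_raiseC (f : CuspForm (Gamma1 N) k) (n : ℕ) :
    ModularFormClass.qCoeff (raiseC h f) n = ModularFormClass.qCoeff f n := rfl

theorem qCoeff_raiseM (f : ModularForm (Gamma1 N) k) (n : ℕ) :
    ModularFormClass.qCoeff (raiseM h f) n = ModularFormClass.qCoeff f n := rfl

omit [NeZero N] [NeZero N'] in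
theorem coe_unitsMap (u : (ZMod N')ˣ) :
    ((ZMod.unitsMap h u : (ZMod N)ˣ) : ZMod N) = ZMod.castHom h (ZMod N) (u : ZMod N') := rfl

theorem diamond_raiseC (u : (ZMod N')ˣ) (f : CuspForm (Gamma1 N) k) :
    diamond u (raiseC h f) = raiseC h (diamond (ZMod.unitsMap h u) f) := by
  apply DFunLike.coe_injective
  rw [coe_diamond, coe_raiseC, coe_raiseC,
    coe_diamond_of_G0 (ZMod.unitsMap h u) f (δ := repOf u)
      (by rw [coe_unitsMap]; exact G0_of_dvd h (repOf_spec u))]

theorem diamondM_raiseM (u : (ZMod N')ˣ) (f : ModularForm (Gamma1 N) k) :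
    diamondM u (raiseM h f) = raiseM h (diamondM (ZMod.unitsMap h u) f) := by
  apply DFunLike.coe_injective
  rw [coe_diamondM, coe_raiseM, coe_raiseM,
    coe_diamondM_of_G0 (ZMod.unitsMap h u) f (δ := repOf u)
      (by rw [coe_unitsMap]; exact G0_of_dvd h (repOf_spec u))]

theorem unitsMap_unitOfPrime (p : ℕ) [Fact p.Prime] (hpN' : ¬ p ∣ N') :
    ZMod.unitsMap h (unitOfPrime p hpN') = unitOfPrime p (fun hp ↦ hpN' (hp.trans h)) := by
  apply Units.ext
  rw [coe_unitsMap, coe_unitOfPrime, coe_unitOfPrime, map_natCast]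

theorem heckeT_raiseC (p : ℕ) [Fact p.Prime] (hpN' : ¬ p ∣ N') (f : CuspForm (Gamma1 N) k) :
    heckeT p hpN' (raiseC h f) = raiseC h (heckeT p (fun hp ↦ hpN' (hp.trans h)) f) := by
  apply DFunLike.coe_injective
  rw [coe_heckeT_eq, coe_raiseC, coe_raiseC, coe_heckeT_eq, diamond_raiseC, coe_raiseC,
    unitsMap_unitOfPrime]

theorem heckeTM_raiseM (p : ℕ) [Fact p.Prime] (hpN' : ¬ p ∣ N') (f : ModularForm (Gamma1 N) k) :
    heckeTM p hpN' (raiseM h f) = raiseM h (heckeTM p (fun hp ↦ hpN' (hp.trans h)) f) := by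
  apply DFunLike.coe_injective
  rw [coe_heckeTM_eq, coe_raiseM, coe_raiseM, coe_heckeTM_eq, diamondM_raiseM, coe_raiseM,
    unitsMap_unitOfPrime]

end level

/-! ### Products -/

section products

variable {k₁ k₂ : ℤ}

omit [NeZero N] in
theorem inv1_mul {F G : ℍ → ℂ} (hF : Inv1 N k₁ F) (hG : Inv1 N k₂ G) :
    Inv1 N (k₁ + k₂) (F * G) := fun g hg ↦ by
  have h := ModularForm.mul_slash_SL2 k₁ k₂ g F G
  have hF' : F ∣[k₁] g = F := hF g hg
  have hG' : G ∣[k₂] g = G := hG g hg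
  rw [hF', hG'] at h
  exact h

theorem cuspQ_mul_mdfQ {F G : ℍ → ℂ} (hF : CuspQ k₁ F) (hG : MdfQ k₂ G) :
    CuspQ (k₁ + k₂) (F * G) := by
  refine ⟨hF.1.mul hG.1, fun A hA ↦ ?_⟩
  rw [ModularForm.mul_slash]
  exact ((hF.2 A hA).mul_boundedAtFilter (hG.2 A hA)).smul _

theorem MdfQ.mul {F G : ℍ → ℂ} (hF : MdfQ k₁ F) (hG : MdfQ k₂ G) :
    MdfQ (k₁ + k₂) (F * G) := by
  refine ⟨hF.1.mul hG.1, fun A hA ↦ ?_⟩
  rw [ModularForm.mul_slash]
  exact ((hF.2 A hA).mul (hG.2 A hA)).smul _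

/-- The product of a cusp form and a modular form, as a cusp form. -/
def mulCM (f : CuspForm (Gamma1 N) k₁) (g : ModularForm (Gamma1 N) k₂) :
    CuspForm (Gamma1 N) (k₁ + k₂) :=
  (cuspQ_mul_mdfQ (cuspQ_cuspForm f) (mdfQ_modularForm g)).toCuspForm
    (inv1_mul (inv1_cuspForm f) (inv1_modularForm g))

@[simp] theorem coe_mulCM (f : CuspForm (Gamma1 N) k₁) (g : ModularForm (Gamma1 N) k₂) :
    ⇑(mulCM f g) = ⇑f * ⇑g := rfl

theorem qCoeff_mulCM (f : CuspForm (Gamma1 N) k₁) (g : ModularForm (Gamma1 N) k₂) (n : ℕ) :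
    ModularFormClass.qCoeff (mulCM f g) n =
      ∑ ij ∈ Finset.HasAntidiagonal.antidiagonal n, ModularFormClass.qCoeff f ij.1 * ModularFormClass.qCoeff g ij.2 := by
  change (qExpansion 1 (⇑f * ⇑g)).coeff n = _
  rw [qExpansion_mul (nice_cuspForm f).analyticAt (nice_modularForm g).analyticAt,
    PowerSeries.coeff_mul]
  rfl

theorem diamond_mulCM (u : (ZMod N)ˣ) (f : CuspForm (Gamma1 N) k₁) (g : ModularForm (Gamma1 N) k₂) :
    diamond u (mulCM f g) = mulCM (diamond u f) (diamondM u g) := by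
  apply DFunLike.coe_injective
  rw [coe_diamond, coe_mulCM, coe_mulCM, coe_diamond, coe_diamondM]
  exact ModularForm.mul_slash_SL2 k₁ k₂ (repOf u) ⇑f ⇑g

/-- The product of forms with nebentypus `c₁`, `c₂` at `u` has nebentypus `c₁ c₂` at `u`. -/
theorem diamond_mulCM_of_eigen (u : (ZMod N)ˣ) {f : CuspForm (Gamma1 N) k₁}
    {g : ModularForm (Gamma1 N) k₂} {c₁ c₂ : ℂ} (hf : diamond u f = c₁ • f)
    (hg : diamondM u g = c₂ • g) : diamond u (mulCM f g) = (c₁ * c₂) • mulCM f g := by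
  rw [diamond_mulCM, hf, hg]
  apply DFunLike.coe_injective
  ext τ
  simp only [coe_mulCM, FunLike.coe_smul, Pi.mul_apply, Pi.smul_apply, smul_eq_mul]
  ring

end products

end Fermat.Agent.S48.G1
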